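import Fermat.Agent.GaloisBasic.ValuationRing
import Fermat.Agent.Curve.Riemann

/-!
# Constant reductions of function fields and lattices in Riemann–Roch spaces

`ConstRed` packages the reduction: integral ring, reduction map, map of places. Integral points
of a finite subspace form lattices with independent residues (`exists_residual_basis`).
-/

set_option autoImplicit false

noncomputable section

open AlgebraicCurve Module

namespace FermatAgent.Curve

/-- Basis of the integral points of a subspace with independent residues. -/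
theorem exists_residual_basis {K k : Type*} [Field K] [Field k] {A : ValuationSubring K}
    (ρ : A →+* k) {ι : Type*} [Fintype ι] :
    ∀ (d : ℕ) (V : Submodule K (ι → K)), finrank K V = d → ∃ b : Fin d → ι → A,
      (∀ i, (fun j => (b i j : K)) ∈ V) ∧ LinearIndependent k (fun i j => ρ (b i j)) := by
  intro d
  induction d with
  | zero => exact fun _ _ => ⟨Fin.elim0, fun i => i.elim0, linearIndependent_empty_type⟩
  | succ d ih =>
    intro V hV
    obtain ⟨v, hv0⟩ := Module.finrank_pos_iff_exists_ne_zero.1
      (show 0 < finrank K V by omega)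
    have hv : (v : ι → K) ≠ 0 := fun h => hv0 (Subtype.ext h)
    obtain ⟨i₀, hl, hmem⟩ := exists_pivot (A := A) hv
    set l := (v : ι → K) i₀
    let u : ι → A := fun i => ⟨_, hmem i⟩
    have hu : (fun j => (u j : K)) ∈ V := by
      have h := V.smul_mem l⁻¹ v.2
      convert h using 1
      funext j
      show (v : ι → K) j / l = l⁻¹ * (v : ι → K) j
      ring
    have hu₀ : u i₀ = 1 := Subtype.ext (div_self hl)
    let φ : V →ₗ[K] K := (LinearMap.proj i₀).comp V.subtype
    have hφ : LinearMap.range φ = ⊤ := by
      refine Submodule.eq_top_iff'.2 fun c => ⟨c • ⟨_, hu⟩, ?_⟩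
      show c * (u i₀ : K) = c
      rw [hu₀, OneMemClass.coe_one, mul_one]
    have hker : finrank K (LinearMap.ker φ) = d := by
      have h := φ.finrank_range_add_finrank_ker
      rw [hφ, finrank_top, Module.finrank_self, hV] at h
      omega
    set W := (LinearMap.ker φ).map V.subtype
    obtain ⟨b, hb, hind⟩ := ih W (by
      rw [← hker]
      exact ((LinearMap.ker φ).equivMapOfInjective _ V.injective_subtype).finrank_eq.symm)
    have hb0 : ∀ i, b i i₀ = 0 := fun i => by
      obtain ⟨w, hw, hwe⟩ := hb i
      exact Subtype.ext ((congrFun hwe i₀).symm.trans hw)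
    have hbV : ∀ i, (fun j => (b i j : K)) ∈ V := fun i => by
      obtain ⟨w, -, hwe⟩ := hb i
      rw [← hwe]
      exact w.2
    refine ⟨Fin.cons u b, ?_, ?_⟩
    · intro i
      refine Fin.cases ?_ ?_ i
      · exact hu
      · exact hbV
    · rw [Fintype.linearIndependent_iff]
      intro c hc
      rw [Fin.sum_univ_succ] at hc
      simp only [Fin.cons_zero, Fin.cons_succ] at hc
      have h0 : c 0 = 0 := by
        have h := congrFun hc i₀
        simpa [hu₀, hb0] using h
      rw [h0, zero_smul, zero_add] at hc
      exact Fin.cases h0 (Fintype.linearIndependent_iff.1 hind _ hc)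

/-- A constant reduction of a function field: an integral ring with a reduction map to the residual
function field, compatible with a map of places. -/
structure ConstRed {K : Type*} [Field K] (A : ValuationSubring K) {k : Type*} [Field k]
    (ρ : A →+* k) (F Fb : Type*) [Field F] [Algebra K F] [Field Fb] [Algebra k Fb]
    [IsFF K F] [IsFF k Fb] where
  /-- the integral elements -/
  O : Subring F
  /-- reduction -/
  red : O →+* Fb
  /-- the map of places -/
  r : Place K F → Place k Fb
  surj : Function.Surjective ρ
  ker_iff : ∀ a : A, ρ a = 0 ↔ ¬IsUnit a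
  algebraMap_mem : ∀ a : A, algebraMap K F (a : K) ∈ O
  red_algebraMap : ∀ a : A, red ⟨_, algebraMap_mem a⟩ = algebraMap k Fb (ρ a)
  lattice : ∀ (V : Submodule K F), Module.Finite K V → ∃ b : Fin (finrank K V) → O,
    (∀ i, (b i : F) ∈ V) ∧ LinearIndependent k (fun i => red (b i))
  mapDomain_r : ∀ g : O, red g ≠ 0 →
    Finsupp.mapDomain r (divisorOf (g : F)) = divisorOf (red g)

namespace ConstRed

variable {K : Type*} [Field K] {A : ValuationSubring K} {k : Type*} [Field k] {ρ : A →+* k}
  {F Fb : Type*} [Field F] [Algebra K F] [Field Fb] [Algebra k Fb] [IsFF K F] [IsFF k Fb]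
  (S : ConstRed A ρ F Fb)

/-- Constants. -/
def cst : A →+* S.O := ((algebraMap K F).comp A.subtype).codRestrict S.O S.algebraMap_mem

/-- The underlying function of an integral constant. -/
@[simp] theorem coe_cst (a : A) : (S.cst a : F) = algebraMap K F (a : K) := rfl

/-- Integral constants reduce to their residues. -/
theorem red_cst (a : A) : S.red (S.cst a) = algebraMap k Fb (ρ a) := S.red_algebraMap a

/-- Reduction is semilinear. -/
theorem red_cst_mul (a : A) (g : S.O) : S.red (S.cst a * g) = ρ a • S.red g := by
  rw [map_mul, red_cst, Algebra.smul_def]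

/-- Scalars of elements with nonzero reduction are integral. -/
theorem mem_of_mul_mem {l : K} {g : S.O} (hg : S.red g ≠ 0)
    (h : algebraMap K F l * (g : F) ∈ S.O) : l ∈ A := by
  by_contra hl
  obtain ⟨μ, hμ, hμ0⟩ := exists_inv_eq_zero S.ker_iff hl
  refine hg ?_
  have hl0 : l ≠ 0 := fun h0 => hl (h0 ▸ A.zero_mem)
  have e : g = S.cst μ * ⟨_, h⟩ := Subtype.ext (by
    show (g : F) = algebraMap K F (μ : K) * (algebraMap K F l * (g : F))
    rw [← mul_assoc, ← map_mul, hμ, inv_mul_cancel₀ hl0, map_one, one_mul])
  rw [e, red_cst_mul, hμ0, zero_smul]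

/-- A nonzero function is a constant times an integral function with nonzero reduction. -/
theorem exists_normal {f : F} (hf : f ≠ 0) :
    ∃ (l : K) (g : S.O), l ≠ 0 ∧ f = algebraMap K F l * (g : F) ∧ S.red g ≠ 0 := by
  obtain ⟨b, hb, hind⟩ := S.lattice (Submodule.span K {f}) inferInstance
  have h1 : finrank K (Submodule.span K {f}) = 1 := finrank_span_singleton hf
  set i : Fin (finrank K (Submodule.span K {f})) := ⟨0, by omega⟩
  have hne : S.red (b i) ≠ 0 := hind.ne_zero i
  obtain ⟨c, hc⟩ := Submodule.mem_span_singleton.1 (hb i)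
  have hc0 : c ≠ 0 := fun h => hne (by
    rw [show b i = 0 from Subtype.ext (by rw [← hc, h, zero_smul]; rfl), map_zero])
  refine ⟨c⁻¹, b i, inv_ne_zero hc0, ?_, hne⟩
  rw [← hc, Algebra.smul_def, ← mul_assoc, ← map_mul, inv_mul_cancel₀ hc0, map_one, one_mul]

/-- An integral function with nonzero reduction has an integral inverse. -/
theorem inv_mem {g : S.O} (hg : S.red g ≠ 0) : (g : F)⁻¹ ∈ S.O := by
  have hg0 : (g : F) ≠ 0 := fun h => hg (by
    rw [show g = 0 from Subtype.ext h, map_zero])
  obtain ⟨l, h, hl, he, hh⟩ := S.exists_normal (inv_ne_zero hg0)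
  have he' : algebraMap K F l⁻¹ * (1 : F) = (g : F) * (h : F) := by
    have h1 : (g : F) * (algebraMap K F l * (h : F)) = 1 := by rw [← he, mul_inv_cancel₀ hg0]
    have hlF : algebraMap K F l ≠ 0 := (_root_.map_ne_zero _).2 hl
    rw [map_inv₀, mul_one]
    field_simp
    linear_combination -h1
  have hlA : l⁻¹ ∈ A := S.mem_of_mul_mem (g := 1) (by rw [map_one]; exact one_ne_zero) (by
    rw [OneMemClass.coe_one, he']; exact (g * h).2)
  set μ : A := ⟨_, hlA⟩
  have hgh : S.red (g * h) = algebraMap k Fb (ρ μ) := by
    rw [← S.red_cst]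
    refine congrArg S.red (Subtype.ext ?_)
    rw [coe_cst, MulMemClass.coe_mul, ← he', mul_one]
  have hμ : IsUnit μ := by
    by_contra hu
    rw [(S.ker_iff μ).2 hu, map_zero, map_mul, mul_eq_zero] at hgh
    exact hgh.elim hg hh
  obtain ⟨ν, hν⟩ := isUnit_iff_exists_inv.1 hμ
  have hlν : l = (ν : K) := by
    have h1 : l⁻¹ * (ν : K) = 1 := congrArg Subtype.val hν
    exact (eq_inv_of_mul_eq_one_right h1).trans (inv_inv l) |>.symm
  rw [he, hlν]
  exact S.O.mul_mem (S.algebraMap_mem ν) h.2

section Family

variable {ι : Type*} [Fintype ι] {b : ι → S.O}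

/-- A combination of a residually independent family, scaled to integral coefficients with nonzero
reduction. -/
theorem exists_scaled (hb : LinearIndependent k (fun i => S.red (b i))) {c : ι → K} (hc : c ≠ 0) :
    ∃ (l : K) (g : S.O), l ≠ 0 ∧ S.red g ≠ 0 ∧ (∀ i, c i / l ∈ A) ∧
      ∑ i, c i • (b i : F) = algebraMap K F l * (g : F) := by
  obtain ⟨i₀, hl, hmem⟩ := exists_pivot (A := A) hc
  refine ⟨c i₀, ∑ i, S.cst ⟨_, hmem i⟩ * b i, hl, fun h => ?_, hmem, ?_⟩
  · rw [map_sum] at h
    simp only [red_cst_mul] at h
    have h1 := Fintype.linearIndependent_iff.1 hb _ h i₀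
    rw [show (⟨c i₀ / c i₀, hmem i₀⟩ : A) = 1 from Subtype.ext (div_self hl), map_one] at h1
    exact one_ne_zero h1
  · rw [AddSubmonoidClass.coe_finsetSum, Finset.mul_sum]
    refine Finset.sum_congr rfl fun i _ => ?_
    rw [MulMemClass.coe_mul, coe_cst, ← mul_assoc, ← map_mul, mul_div_cancel₀ _ hl,
      Algebra.smul_def]

/-- A residually independent family is independent. -/
theorem linearIndependent_of_red (hb : LinearIndependent k (fun i => S.red (b i))) :
    LinearIndependent K (fun i => (b i : F)) := by
  rw [Fintype.linearIndependent_iff]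
  intro c hc
  by_contra hne
  obtain ⟨l, g, hl, hg, -, he⟩ := S.exists_scaled hb (c := c) fun h => hne fun i => congrFun h i
  rw [hc, eq_comm, mul_eq_zero, _root_.map_eq_zero] at he
  exact hg (by rw [show g = 0 from Subtype.ext (he.resolve_left hl), map_zero])

/-- An integral combination of a residually independent family has integral coefficients. -/
theorem coeff_mem (hb : LinearIndependent k (fun i => S.red (b i))) {c : ι → K}
    (h : ∑ i, c i • (b i : F) ∈ S.O) (i : ι) : c i ∈ A := by
  by_cases hc : c = 0
  · rw [hc]; exact A.zero_mem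
  obtain ⟨l, g, hl, hg, hmem, he⟩ := S.exists_scaled hb hc
  have hlA : l ∈ A := S.mem_of_mul_mem hg (he ▸ h)
  have := A.mul_mem _ _ (hmem i) hlA
  rwa [div_mul_cancel₀ _ hl] at this

/-- A residually independent family of full size spans the subspace. -/
theorem mem_span_of_card (hb : LinearIndependent k (fun i => S.red (b i))) {V : Submodule K F}
    [Module.Finite K V] (hbV : ∀ i, (b i : F) ∈ V) (hcard : Fintype.card ι = finrank K V)
    {f : F} (hf : f ∈ V) : ∃ c : ι → K, ∑ i, c i • (b i : F) = f := by
  have hli := S.linearIndependent_of_red hb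
  have hle : Submodule.span K (Set.range fun i => (b i : F)) ≤ V :=
    Submodule.span_le.2 (by rintro _ ⟨i, rfl⟩; exact hbV i)
  have h := Submodule.eq_of_le_of_finrank_eq hle (by rw [finrank_span_eq_card hli, hcard])
  rw [← h, Submodule.mem_span_range_iff_exists_fun] at hf
  exact hf

end Family

end ConstRed

end FermatAgent.Curve
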