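import Fermat.Agent.Curve.ConstRed.Basic
import Fermat.Agent.Curve.Red.Gauss

/-!
# Lattices from a polynomially independent family
-/

set_option autoImplicit false

noncomputable section

open Polynomial Module

namespace FermatAgent.Curve

/-- A coordinate vector as polynomials of bounded degree. -/
def polOf {S : Type*} [Semiring S] {n M : ℕ} (c : Fin n × Fin M → S) (i : Fin n) : S[X] :=
  ∑ j : Fin M, monomial (j : ℕ) (c (i, j))

theorem coeff_polOf {S : Type*} [Semiring S] {n M : ℕ} (c : Fin n × Fin M → S)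
    (p : Fin n × Fin M) : (polOf c p.1).coeff (p.2 : ℕ) = c p := by
  rw [polOf, finsetSum_coeff, Finset.sum_eq_single p.2
    (fun j _ hj => by rw [coeff_monomial, if_neg fun h => hj (Fin.ext h)])
    (fun h => absurd (Finset.mem_univ _) h), coeff_monomial, if_pos rfl]

theorem map_polOf {S T : Type*} [Semiring S] [Semiring T] (f : S →+* T) {n M : ℕ}
    (c : Fin n × Fin M → S) (i : Fin n) : (polOf c i).map f = polOf (fun p => f (c p)) i := by
  simp [polOf, Polynomial.map_sum]

variable {L F : Type*} [Field L] [Field F] [Algebra L F]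

/-- Combinations of a family with coefficients of bounded degree. -/
def combLin (x : F) {n : ℕ} (b : Fin n → F) (M : ℕ) : (Fin n × Fin M → L) →ₗ[L] F where
  toFun c := ∑ i, aeval x (polOf c i) * b i
  map_add' c c' := by
    rw [← Finset.sum_add_distrib]
    refine Finset.sum_congr rfl fun i _ => ?_
    rw [← add_mul, ← map_add (aeval x)]
    simp only [polOf, Pi.add_apply, map_add, Finset.sum_add_distrib]
  map_smul' a c := by
    rw [RingHom.id_apply, Finset.smul_sum]
    refine Finset.sum_congr rfl fun i _ => ?_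
    have : polOf (a • c) i = C a * polOf c i := by simp [polOf, Finset.mul_sum, C_mul_monomial]
    rw [this, map_mul, aeval_C, mul_assoc, Algebra.smul_def]

variable {x : F} {n : ℕ} {b : Fin n → F}
  (hspan : ∀ f : F, ∃ (Q : L[X]) (P : Fin n → L[X]), Q ≠ 0 ∧
    f * aeval x Q = ∑ i, aeval x (P i) * b i)

include hspan in
/-- A common denominator of a finite-dimensional subspace. -/
theorem exists_denominator (V : Submodule L F) [Module.Finite L V] :
    ∃ (Q : L[X]) (M : ℕ), Q ≠ 0 ∧
      ∀ v ∈ V, v * aeval x Q ∈ LinearMap.range (combLin (L := L) x b M) := by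
  classical
  obtain ⟨s, hs⟩ := (Submodule.fg_iff_finiteDimensional V).2 inferInstance
  choose Q P hQ he using fun f : s => hspan (f : F)
  obtain ⟨M, hM⟩ := Finite.exists_le fun p : s × Fin n => Nat.succ <|
    ((∏ j ∈ Finset.univ.erase p.1, Q j) * P p.1 p.2).natDegree
  refine ⟨∏ f, Q f, M, Finset.prod_ne_zero_iff.2 fun f _ => hQ f, fun v hv => ?_⟩
  have hmul : ∀ f : s, (f : F) * aeval x (∏ f, Q f) ∈ LinearMap.range (combLin (L := L) x b M) :=
    fun l => by
    refine ⟨fun p => ((∏ j ∈ Finset.univ.erase l, Q j) * P l p.1).coeff p.2, ?_⟩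
    show ∑ i : Fin n, _ = _
    rw [← Finset.mul_prod_erase _ _ (Finset.mem_univ l), map_mul, ← mul_assoc, he l, Finset.sum_mul]
    refine Finset.sum_congr rfl fun i _ => ?_
    have hdeg : ((∏ j ∈ Finset.univ.erase l, Q j) * P l i).natDegree < M := hM (l, i)
    have hpol : polOf (fun q : Fin n × Fin M =>
        ((∏ j ∈ Finset.univ.erase l, Q j) * P l q.1).coeff q.2) i =
        (∏ j ∈ Finset.univ.erase l, Q j) * P l i := by
      rw [polOf, as_sum_range' _ M hdeg, Finset.sum_range]
    rw [hpol, map_mul]
    ring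
  rw [← hs] at hv
  induction hv using Submodule.span_induction with
  | mem y hy => exact hmul ⟨y, hy⟩
  | zero => rw [zero_mul]; exact Submodule.zero_mem _
  | add y z _ _ hy hz => rw [add_mul]; exact Submodule.add_mem _ hy hz
  | smul a y _ hy => rw [smul_mul_assoc]; exact Submodule.smul_mem _ a hy

include hspan in
/-- Lattices with independent residues. -/
theorem exists_lattice_of_family {R : ValuationSubring L} {k : Type*} [Field k] (π : R →+* k)
    {Fb : Type*} [Field Fb] [Algebra k Fb] (O : Subring F) (red : O →+* Fb) (xb : Fb)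
    (bb : Fin n → Fb) (hx : Transcendental L x)
    (hind : ∀ p : Fin n → k[X], ∑ i, aeval xb (p i) * bb i = 0 → p = 0)
    (hred : ∀ (v : F) (Q : R[X]) (P : Fin n → R[X]), Q.map π ≠ 0 →
      v * aeval x (Q.map R.subtype) = ∑ i, aeval x ((P i).map R.subtype) * b i →
      ∃ h : v ∈ O, red ⟨v, h⟩ * aeval xb (Q.map π) = ∑ i, aeval xb ((P i).map π) * bb i)
    (V : Submodule L F) [Module.Finite L V] :
    ∃ g : Fin (finrank L V) → O, (∀ i, (g i : F) ∈ V) ∧
      LinearIndependent k (fun i => red (g i)) := by
  classical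
  obtain ⟨Q, M, hQ, hden⟩ := exists_denominator hspan V
  obtain ⟨c, Q₁, hc, ⟨⟨⟩, hQ'⟩, hQe₁⟩ := Red.exists_primitive π (fun _ : Unit => Q)
    (fun h => hQ (congrFun h ()))
  set Q' : R[X] := Q₁ ()
  have hQe : Q = C c * Q'.map R.subtype := hQe₁ ()
  set q : F := aeval x (Q'.map R.subtype) with hq
  have hq0 : q ≠ 0 := fun h => hQ' (by
    have h' := Polynomial.map_injective R.subtype Subtype.coe_injective
      ((transcendental_iff.1 hx _ h).trans (Polynomial.map_zero _).symm)
    rw [h', Polynomial.map_zero])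
  set W := (V.map (LinearMap.mulRight L q)).comap (combLin (L := L) x b M)
  have hd : finrank L V ≤ finrank L W := by
    let φ : W →ₗ[L] V.map (LinearMap.mulRight L q) :=
      ((combLin (L := L) x b M).comp W.subtype).codRestrict _ fun w => w.2
    have hsurj : Function.Surjective φ := fun y => by
      obtain ⟨v, hv, hvy⟩ := y.2
      have h1 := hden v hv
      rw [hQe, map_mul, aeval_C, mul_left_comm, ← Algebra.smul_def,
        Submodule.smul_mem_iff _ hc] at h1
      obtain ⟨cc, hcc⟩ := h1
      have hc' : combLin (L := L) x b M cc = (y : F) := hcc.trans hvy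
      exact ⟨⟨cc, show combLin (L := L) x b M cc ∈ _ by rw [hc']; exact y.2⟩, Subtype.ext hc'⟩
    calc finrank L V = finrank L (V.map (LinearMap.mulRight L q)) :=
          (V.equivMapOfInjective _ (mul_left_injective₀ hq0)).finrank_eq
      _ ≤ finrank L W := LinearMap.finrank_le_finrank_of_surjective hsurj
  obtain ⟨β, hβ, hβi⟩ := exists_residual_basis π (finrank L W) W rfl
  choose v hvV hv using fun l => hβ (Fin.castLE hd l)
  have hvQ : ∀ l, v l * aeval x (Q'.map R.subtype) =
      ∑ i, aeval x ((polOf (β (Fin.castLE hd l)) i).map R.subtype) * b i := fun l => by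
    simp only [map_polOf]
    exact hv l
  choose hO hr using fun l => hred (v l) Q' _ hQ' (hvQ l)
  refine ⟨fun l => ⟨v l, hO l⟩, hvV, ?_⟩
  rw [Fintype.linearIndependent_iff]
  intro cf hcf
  have h1 : ∑ i, aeval xb (∑ l, C (cf l) * (polOf (β (Fin.castLE hd l)) i).map π) * bb i = 0 := by
    have h2 := congrArg (fun z : Fb => z * aeval xb (Q'.map π)) hcf
    simp only [Algebra.smul_def, Finset.sum_mul, mul_assoc, hr, zero_mul] at h2
    rw [← h2]
    simp only [map_sum, map_mul, aeval_C, Finset.sum_mul, Finset.mul_sum]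
    rw [Finset.sum_comm]
    exact Finset.sum_congr rfl fun l _ => Finset.sum_congr rfl fun i _ => mul_assoc _ _ _
  have h2 := hind _ h1
  refine Fintype.linearIndependent_iff.1 (hβi.comp _ (Fin.castLE_injective hd)) cf
    (funext fun p => ?_)
  have h3 := congrArg (fun q => Polynomial.coeff q (p.2 : ℕ)) (congrFun h2 p.1)
  simp only [finsetSum_coeff, coeff_C_mul, coeff_map, coeff_polOf, Pi.zero_apply, coeff_zero] at h3
  simpa using h3

end FermatAgent.Curve
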