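import Fermat.Agent.Curve.ConstRed.Torsion
import Fermat.Agent.Curve.ConstRed.Coords
import Fermat.Agent.Curve.Red.Inputs

/-!
# The constant reduction of `X₀(N)` at a good prime

For a regular Gauss model, any map of places compatible with the reduction of integral series
gives a constant reduction (`Regular.constRed`), and if residual functions with bounded poles lift
to integral series, the genus does not exceed the residual one (`Regular.rGenus_le`). For
`X₀(N)` and a prime `ℓ ∤ N` such lifts exist (`exists_lift_barModel`), which gives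
`exists_constRed_for`. Consequently a class killed by a multiple prime to `ℓ` whose reduction is
principal is zero (`mk_eq_zero_of_reduction`).
-/

set_option autoImplicit false

open Polynomial AlgebraicCurve Module
open scoped MatrixGroups
open ModularCurve (coeffMap jqModC modularFunctionFieldFullC)

noncomputable section

-- declared early: registering a notation waits for all earlier proofs
local notation "Qb" => AlgebraicClosure ℚ

-- searched first: the other route ends in a long failing unification on the scalar towers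
attribute [local instance 1100] SubalgebraClass.toAlgebra

namespace FermatAgent.Curve.Red.GaussModel

variable {L : Type*} [Field L] {k : Type*} [Field k] {G : GaussModel L k}
variable {Fb : IntermediateField k (LaurentSeries k)} (hR : G.Regular Fb)

/-- Integral elements of the function field. -/
def intField : Subring G.F := G.intRing.comap G.F.val.toRingHom

/-- Their reduction. -/
def Regular.redF : (G.intField : Subring G.F) →+* Fb :=
  (G.redHom.comp ((G.F.val.toRingHom.comp G.intField.subtype).codRestrict G.intRing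
    fun f => f.2)).codRestrict Fb.toSubfield.toSubring fun _ => hR.red_mem _

/-- The reduction is computed on series. -/
theorem Regular.coe_redF (f : G.intField) :
    (hR.redF f : LaurentSeries k) = G.red ⟨((f : G.F) : LaurentSeries L), f.2⟩ := rfl

theorem algebraMap_intField (a : G.R) : algebraMap L G.F (a : L) ∈ G.intField := by
  show ((algebraMap L G.F (a : L) : G.F) : LaurentSeries L) ∈ G.intRing
  rw [IntermediateField.coe_algebraMap_apply,
    ModularCurve.algebraMap_laurentSeries_eq_single, ← HahnSeries.C_apply]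
  exact G.C_mem_intRing a

theorem Regular.redF_algebraMap (a : G.R) :
    hR.redF ⟨_, G.algebraMap_intField a⟩ = algebraMap k Fb (G.π a) := by
  refine Subtype.ext ?_
  have h1 : ((algebraMap k Fb (G.π a) : Fb) : LaurentSeries k) = HahnSeries.C (G.π a) := by
    rw [IntermediateField.coe_algebraMap_apply,
      ModularCurve.algebraMap_laurentSeries_eq_single, HahnSeries.C_apply]
  rw [h1, hR.coe_redF, ← G.redHom_C]
  refine congrArg G.red (Subtype.ext ?_)
  show ((algebraMap L G.F (a : L) : G.F) : LaurentSeries L) = _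
  rw [IntermediateField.coe_algebraMap_apply,
    ModularCurve.algebraMap_laurentSeries_eq_single, ← HahnSeries.C_apply]

/-- Lattices in finite-dimensional subspaces. -/
theorem Regular.exists_lattice (V : Submodule L G.F) [Module.Finite L V] :
    ∃ b : Fin (finrank L V) → G.intField,
      (∀ i, (b i : G.F) ∈ V) ∧ LinearIndependent k (fun i => hR.redF (b i)) := by
  refine exists_lattice_of_family (x := G.xF) (b := fun i => ⟨G.incl (G.b i), G.b_mem i⟩)
    (fun f => ?_) G.π G.intField hR.redF hR.xb (fun i => ⟨G.redS (G.b i), hR.b_mem i⟩)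
    ?_ (fun p hp => G.indep p ?_) (fun v Q P hQ h => ?_) V
  · obtain ⟨Q, P, hQ, he⟩ := G.spans _ f.2
    refine ⟨Q, P, hQ, Subtype.ext ?_⟩
    rw [MulMemClass.coe_mul, G.coe_aeval_xF, AddSubmonoidClass.coe_finsetSum]
    refine Eq.trans he (Finset.sum_congr rfl fun i _ => ?_)
    rw [MulMemClass.coe_mul, G.coe_aeval_xF]
    rfl
  · exact G.transcendental_xF
  · have := congrArg Subtype.val hp
    rw [AddSubmonoidClass.coe_finsetSum, ZeroMemClass.coe_zero] at this
    refine Eq.trans (Finset.sum_congr rfl fun i _ => ?_) this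
    rw [MulMemClass.coe_mul, hR.coe_aeval_xb]
    rfl
  · have h' : (v : LaurentSeries L) * G.incl (G.evR Q) = G.incl (G.comb P) := by
      have h1 := congrArg Subtype.val h
      rw [MulMemClass.coe_mul, G.coe_aeval_xF, AddSubmonoidClass.coe_finsetSum] at h1
      rw [G.incl_evR, h1, G.incl_comb]
      exact Finset.sum_congr rfl fun i _ => by rw [MulMemClass.coe_mul, G.coe_aeval_xF]
    refine ⟨⟨Q, P, hQ, h'⟩, Subtype.ext ?_⟩
    have e := G.red_eq' (f := ⟨_, ⟨Q, P, hQ, h'⟩⟩) hQ h'
    rw [G.redS_evR, G.redS_comb] at e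
    rw [MulMemClass.coe_mul, hR.coe_aeval_xb, AddSubmonoidClass.coe_finsetSum]
    refine Eq.trans e (Finset.sum_congr rfl fun i _ => ?_)
    rw [MulMemClass.coe_mul, hR.coe_aeval_xb]

variable [IsFF L G.F] [IsFF k Fb]

/-- Any map of places satisfying the reduction rule on integral series gives a constant
reduction. -/
def Regular.constRed (r : Place L G.F → Place k Fb)
    (hr : ∀ (s : LaurentSeries G.R) (hs : G.incl s ∈ G.F) (hsk : G.redS s ∈ Fb), G.redS s ≠ 0 →
      ∀ D : Divisor L G.F, (∀ P, D P = P.ord (⟨G.incl s, hs⟩ : G.F)) →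
        ∀ Q, Finsupp.mapDomain r D Q = Q.ord (⟨G.redS s, hsk⟩ : Fb))
: ConstRed G.R G.π G.F Fb where
  O := G.intField
  red := hR.redF
  r := r
  surj := G.surj
  ker_iff := G.ker_iff
  algebraMap_mem := G.algebraMap_intField
  red_algebraMap := hR.redF_algebraMap
  lattice V hV := hR.exists_lattice V
  mapDomain_r f hf := by
    obtain ⟨Q, P, hQ, h⟩ := f.2
    have h' : ((f : G.F) : LaurentSeries L) * G.incl (G.evR Q) = G.incl (G.comb P) := h
    have hne : G.redS (G.evR Q) ≠ 0 := by rw [G.redS_evR]; exact G.evk_ne_zero hQ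
    have e := G.red_eq' (f := ⟨_, f.2⟩) hQ h'
    have hred0 : (hR.redF f : LaurentSeries k) ≠ 0 := fun h0 => hf (Subtype.ext h0)
    have hcne : G.redS (G.comb P) ≠ 0 := by
      rw [← e]; exact mul_ne_zero hred0 hne
    have hmem : ∀ s, G.incl s ∈ G.F → G.redS s ∈ Fb := fun s hs => by
      rw [← G.red_incl hs]; exact hR.red_mem _
    set fc : G.F := ⟨G.incl (G.comb P), G.incl_comb_mem P⟩
    set fq : G.F := ⟨G.incl (G.evR Q), G.incl_evR_mem Q⟩
    set rc : Fb := ⟨G.redS (G.comb P), hmem _ (G.incl_comb_mem P)⟩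
    set rq : Fb := ⟨G.redS (G.evR Q), hmem _ (G.incl_evR_mem Q)⟩
    have hfq0 : fq ≠ 0 := fun h0 => G.incl_evR_ne_zero hQ (congrArg Subtype.val h0)
    have hf0 : (f : G.F) ≠ 0 := fun h0 => hf (by rw [show f = 0 from Subtype.ext h0, map_zero])
    have e1 : (f : G.F) * fq = fc := Subtype.ext h'
    have e2 : hR.redF f * rq = rc := Subtype.ext e
    have hrq0 : rq ≠ 0 := fun h0 => hne (congrArg Subtype.val h0)
    have hc : Finsupp.mapDomain r (divisorOf fc) = divisorOf rc :=
      Finsupp.ext fun v => hr _ (G.incl_comb_mem P) _ hcne _ (fun _ => rfl) v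
    have hq : Finsupp.mapDomain r (divisorOf fq) = divisorOf rq :=
      Finsupp.ext fun v => hr _ (G.incl_evR_mem Q) _ hne _ (fun _ => rfl) v
    rw [← e1, ← e2, divisorOf_mul hf0 hfq0, divisorOf_mul hf hrq0, Finsupp.mapDomain_add, hq] at hc
    exact add_right_cancel hc

omit [IsFF L ↥G.F] in
theorem intOver_of_isIntegralElem {w xe : G.F} {x s : LaurentSeries G.R}
    (hx : G.incl x = (xe : LaurentSeries L)) (hs : G.incl s = (w : LaurentSeries L))
    (h : (eval₂RingHom HahnSeries.C x).IsIntegralElem s) : IntOver L xe w := by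
  obtain ⟨p, hp, h0⟩ := h
  rw [intOver_iff_eval₂]
  refine ⟨p.map (mapRingHom G.R.subtype), hp.map _, ?_⟩
  rw [← hs, ← hx, eval₂_map, ← map_zero G.incl, ← h0, hom_eval₂]
  congr 1
  exact Polynomial.ringHom_ext (fun a => by simp [incl, HahnSeries.C_apply]) (by simp)

/-- Residual sections lift to integral series with bounded poles. -/
theorem Regular.exists_series_lift
    {y : LaurentSeries G.R} (hy : G.x * y = 1) {n : ℕ}
    (hlift : ∀ z ∈ Fb, (eval₂RingHom HahnSeries.C (G.redS G.x)).IsIntegralElem z →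
        (eval₂RingHom HahnSeries.C (G.redS G.x)⁻¹).IsIntegralElem (z * (G.redS G.x)⁻¹ ^ n) →
        ∃ s : LaurentSeries G.R, G.incl s ∈ G.F ∧ G.redS s = z ∧
          (eval₂RingHom HahnSeries.C G.x).IsIntegralElem s ∧
          (eval₂RingHom HahnSeries.C y).IsIntegralElem (s * y ^ n))
    {z : Fb} (hz : z ∈ riemannRochSpace ((n : ℤ) • (poleDivisor hR.xb : Divisor k Fb))) :
    ∃ (s : LaurentSeries G.R) (hs : G.incl s ∈ G.F),
      (⟨G.incl s, hs⟩ : G.F) ∈ riemannRochSpace ((n : ℤ) • (poleDivisor G.xF : Divisor L G.F)) ∧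
        G.redS s = (z : LaurentSeries k) := by
  have hyF : G.incl y = ((G.xF⁻¹ : G.F) : LaurentSeries L) := by
    rw [IntermediateField.coe_inv]
    exact eq_inv_of_mul_eq_one_right (by
      show G.incl G.x * _ = 1
      rw [← map_mul, hy, map_one])
  rw [mem_riemannRochSpace] at hz
  have hint : IntOver k hR.xb z := intOver_of_ordGE fun v hv => by
    refine (hz v).mono ?_
    rw [Finsupp.smul_apply, poleDivisor_apply, max_eq_right (by omega), smul_zero, neg_zero]
  have hint' : IntOver k hR.xb⁻¹ (z * hR.xb⁻¹ ^ n) := intOver_of_ordGE fun v hv => by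
    rw [Place.ord_inv] at hv
    refine ((hz v).mul (ordGE_self (v := v) (hR.xb⁻¹ ^ n))).mono ?_
    rw [Finsupp.smul_apply, poleDivisor_apply, max_eq_left hv, ord_pow, Place.ord_inv, smul_eq_mul]
    linarith
  rw [intOver_iff_eval₂] at hint hint'
  rw [IntermediateField.coe_inv] at hint'
  push_cast at hint'
  obtain ⟨s, hs, hsz, hi, hi'⟩ := hlift _ z.2 hint hint'
  set w : G.F := ⟨G.incl s, hs⟩
  have hS : IntOver L G.xF w := intOver_of_isIntegralElem (x := G.x) rfl rfl hi
  have hS' : IntOver L G.xF⁻¹ (w * G.xF⁻¹ ^ n) := intOver_of_isIntegralElem (x := y) hyF (by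
    rw [map_mul, map_pow, hyF]; push_cast; rfl) hi'
  refine ⟨s, hs, ?_, hsz⟩
  rw [mem_riemannRochSpace]
  intro v
  show OrdGE v _ w
  rw [Finsupp.smul_apply, poleDivisor_apply]
  by_cases hv : 0 ≤ v.ord G.xF
  · rw [max_eq_right (by omega), smul_zero, neg_zero]
    exact hS.ordGE hv
  · have hv' : 0 ≤ v.ord G.xF⁻¹ := by rw [Place.ord_inv]; omega
    have hx0 : G.xF ≠ 0 := fun h => hv (by rw [h, Place.ord_zero])
    have h1 := (hS'.ordGE hv').mul (ordGE_self (v := v) (G.xF ^ n))
    rw [mul_assoc, ← mul_pow, inv_mul_cancel₀ hx0, one_pow, mul_one, ord_pow] at h1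
    refine h1.mono ?_
    rw [max_eq_left (by omega), smul_eq_mul]
    linarith

/-- Bounded lifts on two charts make the genus stay. -/
theorem Regular.rGenus_le (S : ConstRed G.R G.π G.F Fb)
    (hO : S.O = G.intField)
    (hred : ∀ (w : G.F) (h : w ∈ G.intField) (h' : w ∈ S.O), S.red ⟨w, h'⟩ = hR.redF ⟨w, h⟩)
    (hn : 0 < G.n) {y : LaurentSeries G.R} (hy : G.x * y = 1) {n0 : ℕ}
    (hlift : ∀ n, n0 ≤ n → ∀ z ∈ Fb, (eval₂RingHom HahnSeries.C (G.redS G.x)).IsIntegralElem z →
        (eval₂RingHom HahnSeries.C (G.redS G.x)⁻¹).IsIntegralElem (z * (G.redS G.x)⁻¹ ^ n) →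
        ∃ s : LaurentSeries G.R, G.incl s ∈ G.F ∧ G.redS s = z ∧
          (eval₂RingHom HahnSeries.C G.x).IsIntegralElem s ∧
          (eval₂RingHom HahnSeries.C y).IsIntegralElem (s * y ^ n)) :
    rGenus L G.F ≤ rGenus k Fb := by
  have hxtr := G.transcendental_xF
  refine S.rGenus_le_of_lift (H := poleDivisor G.xF) (Hb := poleDivisor hR.xb) ?_ ?_ (n0 := n0) ?_
  · rw [degree_poleDivisor hxtr, degree_poleDivisor hR.transcendental_xb,
      hR.finrank_Fb, G.finrank_F]
  · rw [degree_poleDivisor hxtr, G.finrank_F]; exact_mod_cast hn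
  intro n hn' z hz
  obtain ⟨s, hs, hmem, hsz⟩ := hR.exists_series_lift hy (hlift n hn') hz
  have hw : (⟨G.incl s, hs⟩ : G.F) ∈ G.intField := G.intElt_incl (s := s) hs
  refine ⟨⟨_, by rw [hO]; exact hw⟩, hmem, (hred _ hw _).trans (Subtype.ext ?_)⟩
  rw [hR.coe_redF, ← hsz]
  exact G.red_incl hs

end FermatAgent.Curve.Red.GaussModel

namespace FermatAgent.Curve.Red

-- never applies here; each attempt costs seconds
attribute [-instance] IsLocalRing.ResidueField.algebraOfIsIntegral

variable {ℓ : ℕ} [hℓ : Fact ℓ.Prime] {A : ValuationSubring Qb} {N : ℕ} [NeZero N]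

/-- Residual functions with bounded poles at the cusps lift to the model of `X₀(N)`. -/
theorem exists_lift_barModel (hA : A.LiesOverPrime ℓ) (hN : ¬ ℓ ∣ N) :
    ∃ (y : LaurentSeries (barModel hA hN).R) (_ : (barModel hA hN).x * y = 1) (n0 : ℕ),
      ∀ n, n0 ≤ n → ∀ z ∈ modularFunctionFieldFullC (IsLocalRing.ResidueField A) N,
      (eval₂RingHom HahnSeries.C ((barModel hA hN).redS (barModel hA hN).x)).IsIntegralElem z →
      (eval₂RingHom HahnSeries.C ((barModel hA hN).redS (barModel hA hN).x)⁻¹).IsIntegralElem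
          (z * ((barModel hA hN).redS (barModel hA hN).x)⁻¹ ^ n) →
      ∃ s : LaurentSeries (barModel hA hN).R, (barModel hA hN).incl s ∈ (barModel hA hN).F ∧
        (barModel hA hN).redS s = z ∧
        (eval₂RingHom HahnSeries.C (barModel hA hN).x).IsIntegralElem s ∧
        (eval₂RingHom HahnSeries.C y).IsIntegralElem (s * y ^ n) := by
  obtain ⟨n0, hn0⟩ := exists_bounded_lift_bar hA hN
  obtain ⟨y, hy⟩ := (isUnit_jqModC A).exists_right_inv
  have hxm : coeffMap (IsLocalRing.residue A) (jqModC A) = jqModC (IsLocalRing.ResidueField A) :=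
    ModularCurve.coeffMap_jqModC _
  refine ⟨y, hy, n0, fun n hn z hz h1 h2 => ?_⟩
  change (eval₂RingHom HahnSeries.C (coeffMap (IsLocalRing.residue A) (jqModC A))).IsIntegralElem _
    at h1
  change (eval₂RingHom HahnSeries.C
    (coeffMap (IsLocalRing.residue A) (jqModC A))⁻¹).IsIntegralElem
      (z * (coeffMap (IsLocalRing.residue A) (jqModC A))⁻¹ ^ n) at h2
  rw [hxm] at h1 h2
  exact hn0 n hn y hy z hz h1 h2

/-- The constant reduction of `X₀(N)` at `A` along a given map of places. -/
theorem exists_constRed_for (hA : A.LiesOverPrime ℓ) (hN : ¬ ℓ ∣ N)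
    (E : IntermediateField Qb (LaurentSeries Qb)) (hE : E = jField Qb N) [IsFF Qb E]
    [IsFF (IsLocalRing.ResidueField A) (modularFunctionFieldFullC (IsLocalRing.ResidueField A) N)]
    (r : Place Qb E → Place (IsLocalRing.ResidueField A)
        (modularFunctionFieldFullC (IsLocalRing.ResidueField A) N))
    (hr : ∀ (s : LaurentSeries A) (hs : coeffMap A.subtype s ∈ E)
          (hsk : coeffMap (IsLocalRing.residue A) s ∈
            modularFunctionFieldFullC (IsLocalRing.ResidueField A) N),
          coeffMap (IsLocalRing.residue A) s ≠ 0 →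
            ∀ D : Divisor Qb E, (∀ P, D P = P.ord (⟨coeffMap A.subtype s, hs⟩ : E)) →
              ∀ Q, Finsupp.mapDomain r D Q = Q.ord
                (⟨coeffMap (IsLocalRing.residue A) s, hsk⟩ :
                  modularFunctionFieldFullC (IsLocalRing.ResidueField A) N)) :
    ∃ S : ConstRed A (IsLocalRing.residue A) E
        (modularFunctionFieldFullC (IsLocalRing.ResidueField A) N),
      S.r = r ∧ rGenus Qb E ≤ rGenus (IsLocalRing.ResidueField A)
        (modularFunctionFieldFullC (IsLocalRing.ResidueField A) N) := by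
  subst hE
  have := isAlgClosed_residueField A
  obtain ⟨y, hy, n0, hlift⟩ := exists_lift_barModel hA hN
  have : IsFF Qb (barModel hA hN).F := (barModel hA hN).isFF_F
  refine ⟨(regular_barModel hA hN).constRed (G := barModel hA hN) r hr, rfl, ?_⟩
  refine (regular_barModel hA hN).rGenus_le (G := barModel hA hN)
    ((regular_barModel hA hN).constRed (G := barModel hA hN) r hr) rfl (fun _ _ _ => rfl)
    (Nat.pos_of_ne_zero Subgroup.FiniteIndex.index_ne_zero) (y := y) hy (n0 := n0)
    hlift

omit [NeZero N] in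
/-- A class killed by a multiple prime to `ℓ` whose reduction is principal is zero. -/
theorem mk_eq_zero_of_reduction (hA : A.LiesOverPrime ℓ) {F : Type*} [Field F] [Algebra Qb F]
    [IsFF Qb F] [IsAlgClosed (IsLocalRing.ResidueField A)] {Fb : Type*} [Field Fb]
    [Algebra (IsLocalRing.ResidueField A) Fb] [IsFF (IsLocalRing.ResidueField A) Fb]
    (S : ConstRed A (IsLocalRing.residue A) F Fb)
    (hgen : rGenus Qb F ≤ rGenus (IsLocalRing.ResidueField A) Fb) {m : ℕ} (hm : ¬ ℓ ∣ m)
    {D : Divisor.degZero (K := Qb) (F := F)} (hz : m • Pic0.mk D = 0) {g : Fb} (hg : g ≠ 0)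
    (hgD : Finsupp.mapDomain S.r (D : Divisor Qb F) = divisorOf g) : Pic0.mk D = 0 := by
  have h1 : m • D ∈ (Divisor.principal (K := Qb) (F := F)).addSubgroupOf
      (Divisor.degZero (K := Qb) (F := F)) :=
    (QuotientAddGroup.eq_zero_iff _).1 ((QuotientAddGroup.mk_nsmul _ _ _).trans hz)
  obtain ⟨f, hf, hfD⟩ := AddSubgroup.mem_addSubgroupOf.1 h1
  refine (QuotientAddGroup.eq_zero_iff _).2 (AddSubgroup.mem_addSubgroupOf.2 ?_)
  refine S.isPrincipal_of_reduction hgen ?_ ?_ (m := m) ?_ D.2 ⟨f, hf, hfD⟩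
    ⟨g, hg, fun v => by rw [hgD, divisorOf_apply]⟩
  · intro a ha b hb
    obtain ⟨n, hn⟩ := exists_pow_div_mem hA
      ((A.valuation_lt_one_iff _).1 ((IsLocalRing.residue_eq_zero_iff a).1 ha)) b.2 hb
    exact ⟨n, ⟨_, hn⟩, Subtype.ext (by
      rw [SubmonoidClass.coe_pow, MulMemClass.coe_mul, mul_div_cancel₀ _ hb])⟩
  · refine ⟨(ℓ : A), by simp [hℓ.out.ne_zero], ?_⟩
    rw [IsLocalRing.residue_eq_zero_iff, A.valuation_lt_one_iff]
    simpa using A.mem_nonunits_iff.mp hA
  · rw [← map_natCast (IsLocalRing.residue A), Ne, IsLocalRing.residue_eq_zero_iff,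
      A.valuation_lt_one_iff]
    simp [ECLocal.valuation_natCast_eq_one hℓ.out hA hm]

end FermatAgent.Curve.Red
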