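import Fermat.Agent.Curve.ConstRed.Basic

/-!
# Riemann–Roch spaces under constant reduction

Reduction keeps degrees and does not lower `ℓ`; if the genus does not drop it is the same, and
sections of divisors of large degree lift (`exists_threshold`, `exists_lift`).
-/

set_option autoImplicit false

noncomputable section

open AlgebraicCurve Module

namespace FermatAgent.Curve

/-- Pushing divisors forward is monotone. -/
theorem mapDomain_mono {α β : Type*} (r : α → β) {D E : α →₀ ℤ} (h : D ≤ E) :
    Finsupp.mapDomain r D ≤ Finsupp.mapDomain r E := by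
  have h1 := Finsupp.mapDomain_nonneg (f := r) (g := E - D) fun v => by
    simpa using sub_nonneg.mpr (h v)
  intro b
  have h2 := h1 b
  simp only [Finsupp.mapDomain_sub, Finsupp.sub_apply, Finsupp.zero_apply] at h2
  omega

namespace ConstRed

variable {K : Type*} [Field K] [IsAlgClosed K] {A : ValuationSubring K} {k : Type*} [Field k]
  [IsAlgClosed k] {ρ : A →+* k} {F Fb : Type*} [Field F] [Algebra K F] [Field Fb] [Algebra k Fb]
  [IsFF K F] [IsFF k Fb] (S : ConstRed A ρ F Fb)

/-- The reduced divisor has the same degree. -/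
theorem degree_mapDomain (D : Divisor K F) :
    Divisor.degree (Finsupp.mapDomain S.r D) = Divisor.degree D := by
  rw [degree_eq_sum, degree_eq_sum, Finsupp.sum_mapDomain_index]
  · exact fun _ => rfl
  · exact fun _ _ _ => rfl

omit [IsAlgClosed K] [IsAlgClosed k] in
/-- Integral elements of `L(E)` reduce into `L(r E)`. -/
theorem red_mem {E : Divisor K F} {g : S.O} (hg : (g : F) ∈ riemannRochSpace E) :
    S.red g ∈ riemannRochSpace (Finsupp.mapDomain S.r E) := by
  by_cases h : S.red g = 0
  · rw [h]; exact Submodule.zero_mem _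
  have hg0 : (g : F) ≠ 0 := fun h0 => h (by rw [show g = 0 from Subtype.ext h0, map_zero])
  rw [mem_riemannRochSpace_iff_ne_zero h]
  intro Q
  have hle : (0 : Divisor K F) ≤ divisorOf (g : F) + E := fun v => by
    have := (mem_riemannRochSpace_iff_ne_zero hg0).1 hg v
    simp only [Finsupp.add_apply, Finsupp.zero_apply, divisorOf_apply]
    omega
  have h1 := Finsupp.mapDomain_nonneg (f := S.r) hle Q
  simp only [Finsupp.mapDomain_add, S.mapDomain_r g h, Finsupp.add_apply, Finsupp.zero_apply,
    divisorOf_apply] at h1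
  omega

omit [IsAlgClosed K] [IsAlgClosed k] in
/-- `ℓ(E) ≤ ℓ(r E)`. -/
theorem rrDim_le (E : Divisor K F) : rrDim E ≤ rrDim (Finsupp.mapDomain S.r E) := by
  obtain ⟨b, hb, hind⟩ := S.lattice (riemannRochSpace E) inferInstance
  have hind' : LinearIndependent k
      (fun i => (⟨S.red (b i), S.red_mem (hb i)⟩ : riemannRochSpace (Finsupp.mapDomain S.r E))) :=
    LinearIndependent.of_comp (riemannRochSpace _).subtype hind
  simpa [rrDim] using hind'.fintype_card_le_finrank

include S in
/-- The genus is kept once it does not drop. -/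
theorem rGenus_eq (hgen : rGenus K F ≤ rGenus k Fb) : rGenus k Fb = rGenus K F := by
  obtain ⟨c, hc⟩ := exists_rrDim_eq (K := K) (F := F)
  obtain ⟨c', hc'⟩ := exists_rrDim_eq (K := k) (F := Fb)
  obtain ⟨P⟩ := exists_place (K := K) (F := F)
  set E : Divisor K F := Finsupp.single P (max c c')
  have hdeg : Divisor.degree E = max c c' := by simp [E, deg_eq_one P]
  have h1 := hc E (hdeg ▸ le_max_left _ _)
  have h2 := hc' (Finsupp.mapDomain S.r E)
    (by rw [S.degree_mapDomain, hdeg]; exact le_max_right _ _)
  have h3 := Int.ofNat_le.2 (S.rrDim_le E)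
  rw [S.degree_mapDomain] at h2
  omega

/-- From degree `c` on, Riemann–Roch spaces have the expected dimension and reduction does not
change it, so is onto. -/
def IsThreshold (c : ℤ) : Prop :=
  ∀ E : Divisor K F, c ≤ Divisor.degree E →
    (rrDim E : ℤ) = Divisor.degree E + 1 - rGenus K F ∧
      rrDim (Finsupp.mapDomain S.r E) = rrDim E

include S in
/-- If the genus does not drop, a threshold exists. -/
theorem exists_threshold (hgen : rGenus K F ≤ rGenus k Fb) : ∃ c : ℤ, S.IsThreshold c := by
  obtain ⟨c, hc⟩ := exists_rrDim_eq (K := K) (F := F)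
  obtain ⟨c', hc'⟩ := exists_rrDim_eq (K := k) (F := Fb)
  refine ⟨max c c', fun E hE => ⟨hc E ((le_max_left _ _).trans hE), ?_⟩⟩
  have h1 := hc E ((le_max_left _ _).trans hE)
  have h2 := hc' (Finsupp.mapDomain S.r E)
    (by rw [S.degree_mapDomain]; exact (le_max_right _ _).trans hE)
  rw [S.degree_mapDomain, S.rGenus_eq hgen] at h2
  omega

omit [IsAlgClosed K] [IsAlgClosed k] in
/-- If `ℓ` does not jump, every section of the reduced divisor lifts to an integral section. -/
theorem exists_lift {E : Divisor K F} (hE : rrDim (Finsupp.mapDomain S.r E) = rrDim E) {z : Fb}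
    (hz : z ∈ riemannRochSpace (Finsupp.mapDomain S.r E)) :
    ∃ g : S.O, (g : F) ∈ riemannRochSpace E ∧ S.red g = z := by
  obtain ⟨b, hb, hind⟩ := S.lattice (riemannRochSpace E) inferInstance
  have hle : Submodule.span k (Set.range fun i => S.red (b i)) ≤
      riemannRochSpace (Finsupp.mapDomain S.r E) :=
    Submodule.span_le.2 (by rintro _ ⟨i, rfl⟩; exact S.red_mem (hb i))
  have h := Submodule.eq_of_le_of_finrank_eq hle (by
    rw [finrank_span_eq_card hind, Fintype.card_fin]
    exact hE.symm)
  rw [← h, Submodule.mem_span_range_iff_exists_fun] at hz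
  obtain ⟨c, rfl⟩ := hz
  choose a ha using fun i => S.surj (c i)
  refine ⟨∑ i, S.cst (a i) * b i, ?_, ?_⟩
  · rw [AddSubmonoidClass.coe_finsetSum]
    refine Submodule.sum_mem _ fun i _ => ?_
    rw [MulMemClass.coe_mul, coe_cst, ← Algebra.smul_def]
    exact Submodule.smul_mem _ _ (hb i)
  · rw [map_sum]
    exact Finset.sum_congr rfl fun i _ => by rw [red_cst_mul, ha]

omit [IsAlgClosed K] [IsAlgClosed k] in
/-- A new section on adding a point can be chosen with new reduction. -/
theorem exists_step_elt {E : Divisor K F} {P : Place K F}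
    (hE : rrDim (Finsupp.mapDomain S.r E) = rrDim E)
    (hdim : rrDim E < rrDim (E + Finsupp.single P 1)) :
    ∃ g : S.O, (g : F) ∈ riemannRochSpace (E + Finsupp.single P 1) ∧
      S.red g ∉ riemannRochSpace (Finsupp.mapDomain S.r E) := by
  obtain ⟨b, hb, hind⟩ := S.lattice (riemannRochSpace (E + Finsupp.single P 1)) inferInstance
  by_contra hall
  push Not at hall
  have hind' : LinearIndependent k
      (fun i => (⟨S.red (b i), hall _ (hb i)⟩ : riemannRochSpace (Finsupp.mapDomain S.r E))) :=
    LinearIndependent.of_comp (riemannRochSpace _).subtype hind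
  have := hind'.fintype_card_le_finrank
  rw [Fintype.card_fin] at this
  simp only [rrDim] at hE hdim
  omega

omit [IsAlgClosed k] in
/-- One-step decomposition of the integral points. -/
theorem step_decomp {E : Divisor K F} {P : Place K F} {g : S.O}
    (hg : (g : F) ∈ riemannRochSpace (E + Finsupp.single P 1))
    (hi : S.red g ∉ riemannRochSpace (Finsupp.mapDomain S.r E)) (x : S.O)
    (hx : (x : F) ∈ riemannRochSpace (E + Finsupp.single P 1)) :
    ∃ a : A, (x : F) - algebraMap K F (a : K) * (g : F) ∈ riemannRochSpace E := by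
  set V := riemannRochSpace (E + Finsupp.single P 1) with hV
  set W := riemannRochSpace E with hW
  have hgW : (g : F) ∉ W := fun h => hi (S.red_mem h)
  have hWV : W ≤ V := riemannRochSpace_le_of_le fun v => by
    classical
    simp only [Finsupp.add_apply, Finsupp.single_apply]; split_ifs <;> omega
  have htop : W ⊔ Submodule.span K {(g : F)} = V := by
    refine Submodule.eq_of_le_of_finrank_le
      (sup_le hWV (Submodule.span_le.2 (by simpa using hg))) ?_
    have h1 := (riemannRochSpace_step E P).2
    rw [deg_eq_one P] at h1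
    have h2 := Submodule.finrank_lt_finrank_of_lt (s := W) (t := W ⊔ Submodule.span K {(g : F)})
      (lt_of_le_of_ne le_sup_left fun h => hgW (by
        rw [h]; exact Submodule.mem_sup_right (Submodule.mem_span_singleton_self _)))
    change finrank K V ≤ finrank K W + 1 at h1
    omega
  have hxV : (x : F) ∈ V := hx
  rw [← htop, Submodule.mem_sup] at hxV
  obtain ⟨u, hu, w, hw, he⟩ := hxV
  obtain ⟨a, rfl⟩ := Submodule.mem_span_singleton.1 hw
  have haA : a ∈ A := by
    by_contra ha
    obtain ⟨μ, hμ, hμ0⟩ := exists_inv_eq_zero S.ker_iff ha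
    have ha0 : a ≠ 0 := fun h => ha (h ▸ A.zero_mem)
    set g' : S.O := S.cst μ * x - g with hg'
    have hg'W : (g' : F) ∈ W := by
      have h1 : (g' : F) = (μ : K) • u := by
        rw [hg', AddSubgroupClass.coe_sub, MulMemClass.coe_mul, coe_cst, ← he, Algebra.smul_def,
          Algebra.smul_def, mul_add, ← mul_assoc, ← map_mul, hμ, inv_mul_cancel₀ ha0, map_one,
          one_mul, add_sub_cancel_right]
      rw [h1]; exact W.smul_mem _ hu
    refine hi ?_
    have h2 := S.red_mem hg'W
    rw [hg', map_sub, red_cst_mul, hμ0, zero_smul, zero_sub] at h2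
    exact (Submodule.neg_mem_iff _).1 h2
  refine ⟨⟨a, haA⟩, ?_⟩
  rw [← he, Algebra.smul_def, add_sub_cancel_right]
  exact hu

omit [IsAlgClosed K] [IsAlgClosed k] in
include S in
/-- The genus does not drop if multiples of a divisor have all residual sections liftable. -/
theorem rGenus_le_of_lift {H : Divisor K F} {Hb : Divisor k Fb}
    (hdeg : Divisor.degree Hb = Divisor.degree H) (hpos : 0 < Divisor.degree H) {n0 : ℕ}
    (hlift : ∀ n : ℕ, n0 ≤ n → ∀ z ∈ riemannRochSpace ((n : ℤ) • Hb),
      ∃ g : S.O, (g : F) ∈ riemannRochSpace ((n : ℤ) • H) ∧ S.red g = z) :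
    rGenus K F ≤ rGenus k Fb := by
  obtain ⟨c, hc⟩ := exists_rrDim_eq (K := K) (F := F)
  obtain ⟨c', hc'⟩ := exists_rrDim_eq (K := k) (F := Fb)
  set n : ℕ := max n0 (max c c').toNat
  have hn : max c c' ≤ (n : ℤ) * Divisor.degree H :=
    ((Int.self_le_toNat _).trans (by exact_mod_cast le_max_right _ _)).trans
      (le_mul_of_one_le_right (Int.natCast_nonneg _) hpos)
  have h1 := hc ((n : ℤ) • H) (by rw [map_zsmul, smul_eq_mul]; exact (le_max_left _ _).trans hn)
  have h2 := hc' ((n : ℤ) • Hb)
    (by rw [map_zsmul, hdeg, smul_eq_mul]; exact (le_max_right _ _).trans hn)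
  rw [map_zsmul, smul_eq_mul] at h1 h2
  rw [hdeg] at h2
  let bas := Module.finBasis k (riemannRochSpace ((n : ℤ) • Hb))
  choose g hg hgr using fun i => hlift n (le_max_left _ _) _ (bas i).2
  have hind : LinearIndependent k (fun i => S.red (g i)) := by
    simp only [hgr]
    exact bas.linearIndependent.map' (riemannRochSpace ((n : ℤ) • Hb)).subtype
      (riemannRochSpace ((n : ℤ) • Hb)).ker_subtype
  have hli : LinearIndependent K
      (fun i => (⟨(g i : F), hg i⟩ : riemannRochSpace ((n : ℤ) • H))) :=
    LinearIndependent.of_comp (riemannRochSpace ((n : ℤ) • H)).subtype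
      (S.linearIndependent_of_red hind)
  have h3 := hli.fintype_card_le_finrank
  rw [Fintype.card_fin] at h3
  have h4 : rrDim ((n : ℤ) • Hb) ≤ rrDim ((n : ℤ) • H) := h3
  omega

end ConstRed

end FermatAgent.Curve
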