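import Fermat.Agent.Curve.ConstRed.RR

/-!
# A divisor class of order prime to the residue characteristic with trivial reduction is trivial

The genus is assumed not to drop and the valuation to be archimedean.
If `m D = div f` and the reduction of `D` is `div h`, then `f` can be normalised to reduce to
`h ^ m`; Newton's method gives, for two points `P`, `Q`, approximate `m`-th roots of it with poles
near `P` resp. `Q`; these are congruent, and lowering their pole orders leaves members of two
finite spaces meeting in zero that are congruent yet reduce to `h ≠ 0`, unless `D` is principal.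
-/

set_option autoImplicit false

noncomputable section

open AlgebraicCurve Module

namespace FermatAgent.Curve.ConstRed

/-- Finitely many constants have a common denominator in `A`. -/
theorem exists_common_denom {K : Type*} [Field K] (A : ValuationSubring K) {ι : Type*} [Fintype ι]
    (c : ι → K) : ∃ d : A, (d : K) ≠ 0 ∧ ∀ i, (d : K) * c i ∈ A := by
  classical
  have h : ∀ i, ∃ d : A, (d : K) ≠ 0 ∧ (d : K) * c i ∈ A := fun i => by
    by_cases hi : c i ∈ A
    · exact ⟨1, one_ne_zero, by simpa using hi⟩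
    · have h0 : c i ≠ 0 := fun h => hi (h ▸ A.zero_mem)
      exact ⟨⟨_, (A.mem_or_inv_mem (c i)).resolve_left hi⟩, inv_ne_zero h0,
        by rw [inv_mul_cancel₀ h0]; exact A.one_mem⟩
  choose d hd0 hd using h
  refine ⟨∏ i, d i, ?_, fun i => ?_⟩
  · rw [SubmonoidClass.coe_finsetProd]
    exact Finset.prod_ne_zero_iff.2 fun i _ => hd0 i
  · rw [SubmonoidClass.coe_finsetProd, ← Finset.mul_prod_erase _ _ (Finset.mem_univ i),
      mul_comm (d i : K), mul_assoc]
    exact A.mul_mem _ _ (prod_mem fun j _ => (d j).2) (hd i)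

variable {K : Type*} [Field K] [IsAlgClosed K] {A : ValuationSubring K} {k : Type*} [Field k]
  [IsAlgClosed k] {ρ : A →+* k} {F Fb : Type*} [Field F] [Algebra K F] [Field Fb] [Algebra k Fb]
  [IsFF K F] [IsFF k Fb] (S : ConstRed A ρ F Fb)

/-- The map of places of a constant reduction is onto. -/
theorem r_surjective (hgen : rGenus K F ≤ rGenus k Fb) : Function.Surjective S.r := by
  classical
  intro Q
  obtain ⟨P0⟩ := exists_place (K := K) (F := F)
  by_cases hQ : S.r P0 = Q
  · exact ⟨P0, hQ⟩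
  obtain ⟨c, hc⟩ := S.exists_threshold hgen
  obtain ⟨c', hc'⟩ := exists_rrDim_eq (K := k) (F := Fb)
  set e : ℤ := max (max c (c' + 1)) (|rGenus k Fb| + 2)
  set E : Divisor K F := Finsupp.single P0 e
  have hdeg : Divisor.degree E = e := by simp [E, deg_eq_one P0]
  obtain ⟨-, hlift⟩ := hc E (hdeg ▸ (le_max_left _ _).trans (le_max_left _ _))
  set D : Divisor k Fb := Finsupp.single (S.r P0) e - Finsupp.single Q 1
  have hD : Divisor.degree D = e - 1 := by simp [D, deg_eq_one]
  have h1 := hc' D (by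
    have := le_max_right c (c' + 1)
    have := le_max_left (max c (c' + 1)) (|rGenus k Fb| + 2)
    omega)
  have hpos : 0 < rrDim D := by
    have : |rGenus k Fb| + 2 ≤ e := le_max_right _ _
    have := le_abs_self (rGenus k Fb)
    omega
  obtain ⟨z, hz⟩ := Module.finrank_pos_iff_exists_ne_zero.1 hpos
  have hz0 : (z : Fb) ≠ 0 := fun h => hz (Subtype.ext h)
  have hzmem := (mem_riemannRochSpace_iff_ne_zero hz0).1 z.2
  obtain ⟨g, -, hgz⟩ := S.exists_lift (E := E) hlift (z := (z : Fb)) (by
    refine (mem_riemannRochSpace_iff_ne_zero hz0).2 fun v => ?_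
    have := hzmem v
    simp only [E, D, Finsupp.mapDomain_single, Finsupp.sub_apply, Finsupp.single_apply] at this ⊢
    split_ifs at this ⊢ <;> omega)
  have hne : S.red g ≠ 0 := hgz ▸ hz0
  have hQord : (Finsupp.mapDomain S.r (divisorOf (g : F))) Q ≠ 0 := by
    rw [S.mapDomain_r g hne, hgz, divisorOf_apply]
    have := hzmem Q
    simp only [D, Finsupp.sub_apply, Finsupp.single_eq_same, Finsupp.single_eq_of_ne' hQ] at this
    omega
  obtain ⟨P, -, hP⟩ := Finset.mem_image.1
    (Finsupp.mapDomain_support (Finsupp.mem_support_iff.2 hQord))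
  exact ⟨P, hP⟩

include S in
theorem exists_two_places (hgen : rGenus K F ≤ rGenus k Fb) : ∃ P Q : Place K F, S.r P ≠ S.r Q := by
  obtain ⟨x, hx, -⟩ := IsFF.exists_transcendental (K := k) (F := Fb)
  obtain ⟨v, hv⟩ := exists_place_ord_pos hx
  obtain ⟨w, hw⟩ := exists_place_ord_pos (x := x⁻¹) fun h => hx (inv_inv x ▸ h.inv)
  rw [Place.ord_inv] at hw
  obtain ⟨P, rfl⟩ := S.r_surjective hgen v
  obtain ⟨Q, rfl⟩ := S.r_surjective hgen w
  exact ⟨P, Q, fun h => by rw [h] at hv; omega⟩

/-- Every element of the maximal ideal is topologically nilpotent. -/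
def Arch (ρ : A →+* k) : Prop :=
  ∀ a : A, ρ a = 0 → ∀ b : A, (b : K) ≠ 0 → ∃ (n : ℕ) (c : A), a ^ n = b * c

/-- The binomial expansion to second order. -/
theorem exists_one_add_pow {R : Type*} [CommRing R] (y : R) (m : ℕ) :
    ∃ u, (1 + y) ^ m = 1 + (m : R) * y + y ^ 2 * u := by
  induction m with
  | zero => exact ⟨0, by simp⟩
  | succ m ih =>
    obtain ⟨u, hu⟩ := ih
    exact ⟨m + u + y * u, by rw [pow_succ, hu]; push_cast; ring⟩

variable {m : ℕ}

omit [IsAlgClosed K] [IsAlgClosed k] in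
/-- One step of Newton's method for an `m`-th root of `gi⁻¹`: the reduction of `x` is kept, the
error `1 - x ^ m * gi` is squared, and the pole order at `P` is multiplied by `m + 1`. -/
theorem exists_newton_step {E : Divisor K F} {gi : S.O}
    (hgi : (gi : F) ∈ riemannRochSpace (-(m • E))) {mi : A} (hmi : (m : A) * mi = 1)
    {P : Place K F} {e : ℕ} {x : S.O}
    (hx : (x : F) ∈ riemannRochSpace (E + Finsupp.single P (e : ℤ)))
    (ht : S.red (1 - x ^ m * gi) = 0) :
    ∃ x' v : S.O, (x' : F) ∈ riemannRochSpace (E + Finsupp.single P (((m + 1) * e : ℕ) : ℤ)) ∧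
      S.red x' = S.red x ∧ 1 - x' ^ m * gi = (1 - x ^ m * gi) ^ 2 * v := by
  classical
  have hmO : (m : S.O) * S.cst mi = 1 := by
    rw [← map_natCast S.cst, ← map_mul, hmi, map_one]
  set t := 1 - x ^ m * gi with htdef
  obtain ⟨u, hu⟩ := exists_one_add_pow (S.cst mi * t) m
  refine ⟨x * (1 + S.cst mi * t), 1 - (1 - t) * S.cst mi ^ 2 * u, ?_, ?_, ?_⟩
  · have hpow : (x : F) ^ m * (gi : F) ∈
        riemannRochSpace (Finsupp.single P (((m * e : ℕ)) : ℤ)) := by
      have hp : ∀ i : ℕ, (x : F) ^ i ∈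
          riemannRochSpace (i • (E + Finsupp.single P (e : ℤ))) := by
        intro i
        induction i with
        | zero =>
          rw [zero_smul, pow_zero, mem_riemannRochSpace]
          exact fun v => Or.inr (by simp)
        | succ i ih => rw [pow_succ, succ_nsmul]; exact mul_mem_riemannRochSpace ih hx
      have h1 := mul_mem_riemannRochSpace (hp m) hgi
      rwa [nsmul_add, add_assoc, add_comm (m • Finsupp.single P (e : ℤ)), ← add_assoc,
        add_neg_cancel, zero_add, Finsupp.smul_single, nsmul_eq_mul,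
        ← Int.natCast_mul] at h1
    have hone : (1 : F) ∈ riemannRochSpace (Finsupp.single P (((m * e : ℕ)) : ℤ)) := by
      rw [mem_riemannRochSpace]
      refine fun v => Or.inr ?_
      rw [Place.ord_one, Finsupp.single_apply]
      split_ifs <;> omega
    have hfac : ((1 + S.cst mi * t : S.O) : F) ∈
        riemannRochSpace (Finsupp.single P (((m * e : ℕ)) : ℤ)) := by
      push_cast [htdef]
      rw [coe_cst, ← Algebra.smul_def]
      exact Submodule.add_mem _ hone (Submodule.smul_mem _ _ (Submodule.sub_mem _ hone hpow))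
    have h1 := mul_mem_riemannRochSpace hx hfac
    rw [MulMemClass.coe_mul]
    rwa [add_assoc, ← Finsupp.single_add, ← Int.natCast_add,
      show e + m * e = (m + 1) * e by ring] at h1
  · rw [map_mul, map_add, map_one, red_cst_mul, ht, smul_zero, add_zero, mul_one]
  · rw [mul_pow, hu, show (m : S.O) * (S.cst mi * t) = t by rw [← mul_assoc, hmO, one_mul],
      mul_right_comm, show x ^ m * gi = 1 - t from (sub_sub_cancel _ _).symm]
    ring

omit [IsAlgClosed K] [IsAlgClosed k] in
/-- Newton's method: an `m`-th root of `g` modulo `b`, with poles only at one more point. -/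
theorem exists_root_approx (harch : Arch ρ) (hm : (m : k) ≠ 0) {E : Divisor K F} {g : S.O} {h : Fb}
    (hh : h ≠ 0) (hg : S.red g = h ^ m) (hdiv : divisorOf (g : F) = -(m • E))
    {P : Place K F} {e0 : ℕ}
    (h0 : ∃ x : S.O, (x : F) ∈ riemannRochSpace (E + Finsupp.single P (e0 : ℤ)) ∧ S.red x = h)
    {b : A} (hb : (b : K) ≠ 0) :
    ∃ e : ℕ, e0 ≤ e ∧ ∃ x w : S.O, (x : F) ∈ riemannRochSpace (E + Finsupp.single P (e : ℤ)) ∧
      S.red x = h ∧ x ^ m = g * (1 - S.cst b * w) := by
  classical
  have hgr : S.red g ≠ 0 := hg ▸ pow_ne_zero _ hh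
  set gi : S.O := ⟨_, S.inv_mem hgr⟩
  have hgg : g * gi = 1 := Subtype.ext (mul_inv_cancel₀ fun h0' => hgr (by
    rw [show g = 0 from Subtype.ext h0', map_zero]))
  have hgi : (gi : F) ∈ riemannRochSpace (-(m • E)) := by
    rw [mem_riemannRochSpace]
    intro v
    refine Or.inr ?_
    show -((-(m • E) : Divisor K F)) v ≤ v.ord (g : F)⁻¹
    rw [← hdiv, Place.ord_inv]
    exact le_refl _
  obtain ⟨x1, hx1, hr1⟩ := h0
  have hm' : IsUnit ((m : ℕ) : A) := by
    by_contra hu
    exact hm (by rw [← map_natCast ρ]; exact (S.ker_iff _).2 hu)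
  obtain ⟨mi, hmi⟩ := isUnit_iff_exists_inv.1 hm'
  have ht : S.red (1 - x1 ^ m * gi) = 0 := by
    have := congrArg S.red hgg
    rw [map_mul, map_one, hg] at this
    rw [map_sub, map_one, map_mul, map_pow, hr1, this, sub_self]
  obtain ⟨a, t1, ha, ht1⟩ : ∃ (a : A) (t1 : S.O), ρ a = 0 ∧ 1 - x1 ^ m * gi = S.cst a * t1 := by
    by_cases hz : ((1 - x1 ^ m * gi : S.O) : F) = 0
    · exact ⟨0, 0, map_zero _, by rw [map_zero, zero_mul]; exact Subtype.ext hz⟩
    obtain ⟨l, t1, hl, he, htr⟩ := S.exists_normal hz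
    have hlA : l ∈ A := S.mem_of_mul_mem htr (he ▸ (1 - x1 ^ m * gi).2)
    have e : 1 - x1 ^ m * gi = S.cst ⟨l, hlA⟩ * t1 := Subtype.ext he
    refine ⟨_, t1, ?_, e⟩
    rw [e, red_cst_mul, smul_eq_zero] at ht
    exact ht.resolve_right htr
  have key : ∀ n : ℕ, ∃ e : ℕ, e0 ≤ e ∧ ∃ x w : S.O,
      (x : F) ∈ riemannRochSpace (E + Finsupp.single P (e : ℤ)) ∧
        S.red x = h ∧ 1 - x ^ m * gi = S.cst (a ^ (n + 1)) * w := by
    intro n
    induction n with
    | zero => exact ⟨e0, le_rfl, x1, t1, hx1, hr1, by rw [zero_add, pow_one]; exact ht1⟩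
    | succ n ih =>
      obtain ⟨e, he, x, w, hx, hr, ht⟩ := ih
      obtain ⟨x', v, hx', hr', ht'⟩ := S.exists_newton_step hgi hmi hx
        (by rw [ht, red_cst_mul, map_pow, ha, zero_pow n.succ_ne_zero, zero_smul])
      refine ⟨(m + 1) * e, he.trans (Nat.le_mul_of_pos_left _ (Nat.succ_pos _)), x',
        S.cst (a ^ n) * w ^ 2 * v, hx', hr'.trans hr, ?_⟩
      rw [ht', ht]
      simp only [map_pow]
      ring
  obtain ⟨n, c, hnc⟩ := harch a ha b hb
  obtain ⟨e, he, x, w, hx, hr, ht⟩ := key n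
  refine ⟨e, he, x, S.cst (c * a) * w, hx, hr, ?_⟩
  rw [show S.cst b * (S.cst (c * a) * w) = S.cst (a ^ (n + 1)) * w by
      rw [← mul_assoc, ← map_mul]; congr 2; rw [pow_succ, hnc]; ring,
    ← ht, sub_sub_cancel, mul_left_comm, hgg, mul_one]

omit [IsAlgClosed k] in
/-- Lowering the pole order of one member of a congruent pair. -/
theorem descend {c : ℤ} (hc : S.IsThreshold c)
    {E : Divisor K F} (hE : Divisor.degree E = 0) {P Q : Place K F} (hPQ : S.r P ≠ S.r Q)
    {e i : ℕ} (he : c ≤ (e : ℤ)) {b : A} (hb : (b : K) ≠ 0) (hb0 : ρ b = 0) {x x' w : S.O}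
    (hx : (x : F) ∈ riemannRochSpace (E + Finsupp.single P ((e + 1 : ℕ) : ℤ)))
    (hx' : (x' : F) ∈ riemannRochSpace (E + Finsupp.single Q (i : ℤ)))
    (hw : x - x' = S.cst b * w) :
    ∃ u t : S.O, (u : F) ∈ riemannRochSpace (E + Finsupp.single P (e : ℤ)) ∧ S.red u = S.red x ∧
      u - x' = S.cst b * t := by
  classical
  set E1 : Divisor K F := E + Finsupp.single P (e : ℤ) with hE1
  have hP1 : E + Finsupp.single P ((e + 1 : ℕ) : ℤ) = E1 + Finsupp.single P 1 := by
    rw [hE1, add_assoc, ← Finsupp.single_add]; norm_cast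
  have hdeg1 : Divisor.degree E1 = e := by simp [hE1, hE, deg_eq_one P]
  obtain ⟨h1, h1'⟩ := hc E1 (hdeg1 ▸ he)
  obtain ⟨h2, -⟩ := hc (E1 + Finsupp.single P 1)
    (by rw [map_add, hdeg1, Divisor.degree_single, deg_eq_one P]; push_cast; omega)
  obtain ⟨g, hg, hgn⟩ := S.exists_step_elt (E := E1) (P := P) h1' (by
    rw [map_add, Divisor.degree_single, deg_eq_one P] at h2; push_cast at h2; omega)
  set T : Divisor K F := E1 + Finsupp.single Q (i : ℤ) with hT
  have hleT : E1 + Finsupp.single P 1 ≤ T + Finsupp.single P 1 := fun v => by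
    simp only [hT, Finsupp.add_apply, Finsupp.single_apply]; split_ifs <;> omega
  have hgn' : S.red g ∉ riemannRochSpace (Finsupp.mapDomain S.r T) := fun hgT => hgn (by
    have hg1 := S.red_mem hg
    rw [mem_riemannRochSpace] at hgT hg1 ⊢
    intro R
    simp only [hT, Finsupp.mapDomain_add, Finsupp.mapDomain_single, Finsupp.add_apply,
      Finsupp.single_apply] at hgT hg1
    by_cases hR : S.r Q = R
    · have := hg1 R
      rw [if_neg fun h => hPQ (h.trans hR.symm)] at this
      simpa using this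
    · have := hgT R
      rw [if_neg hR] at this
      simpa using this)
  have hxV : (x : F) ∈ riemannRochSpace (E1 + Finsupp.single P 1) := hP1 ▸ hx
  obtain ⟨l, hl⟩ := S.step_decomp hg hgn x hxV
  have hwT : (w : F) ∈ riemannRochSpace (T + Finsupp.single P 1) := by
    have e1 : (x : F) - x' = algebraMap K F (b : K) * (w : F) := congrArg Subtype.val hw
    have e2 : (w : F) = (b : K)⁻¹ • ((x : F) - x') := by
      rw [e1, Algebra.smul_def, ← mul_assoc, ← map_mul, inv_mul_cancel₀ hb, map_one, one_mul]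
    rw [e2]
    refine Submodule.smul_mem _ _ (Submodule.sub_mem _ (riemannRochSpace_le_of_le hleT hxV)
      (riemannRochSpace_le_of_le (fun v => ?_) hx'))
    simp only [hT, hE1, Finsupp.add_apply, Finsupp.single_apply]; split_ifs <;> omega
  obtain ⟨μ, hμ⟩ := S.step_decomp (E := T) (riemannRochSpace_le_of_le hleT hg) hgn' w hwT
  set u : S.O := x - S.cst l * g with hu
  set t : S.O := w - S.cst μ * g with ht
  have huE : (u : F) ∈ riemannRochSpace E1 := hl
  have hlb : l = b * μ := by
    have hz : ((u : F) - x' - algebraMap K F (b : K) * (t : F)) ∈ riemannRochSpace T := by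
      refine Submodule.sub_mem _ (Submodule.sub_mem _ (riemannRochSpace_le_of_le (fun v => ?_) huE)
        (riemannRochSpace_le_of_le (fun v => ?_) hx')) ?_
      · simp only [hT, Finsupp.add_apply, Finsupp.single_apply]; split_ifs <;> omega
      · simp only [hT, hE1, Finsupp.add_apply, Finsupp.single_apply]; split_ifs <;> omega
      · rw [← Algebra.smul_def]; exact Submodule.smul_mem _ _ hμ
    have e1 : (x : F) - x' = algebraMap K F (b : K) * (w : F) := congrArg Subtype.val hw
    have e2 : (u : F) - x' - algebraMap K F (b : K) * (t : F) =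
        ((b : K) * (μ : K) - (l : K)) • (g : F) := by
      rw [hu, ht, Algebra.smul_def, map_sub, map_mul]
      push_cast
      rw [coe_cst, coe_cst]
      linear_combination e1
    rw [e2] at hz
    by_contra hne
    have h0 : (b : K) * (μ : K) - (l : K) ≠ 0 := fun h => hne (Subtype.ext (sub_eq_zero.1 h).symm)
    exact hgn' (S.red_mem ((Submodule.smul_mem_iff _ h0).1 hz))
  refine ⟨u, t, huE, ?_, ?_⟩
  · rw [hu, map_sub, red_cst_mul, hlb, map_mul, hb0, zero_mul, zero_smul, sub_zero]
  · rw [hu, ht, hlb, map_mul, mul_sub, ← hw]; ring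

omit [IsAlgClosed k] in
theorem descend_iter {c : ℤ} (hc : S.IsThreshold c)
    {E : Divisor K F} (hE : Divisor.degree E = 0) {P Q : Place K F} (hPQ : S.r P ≠ S.r Q)
    {e0 i : ℕ} (he : c ≤ (e0 : ℤ)) {b : A} (hb : (b : K) ≠ 0) (hb0 : ρ b = 0) {x' : S.O}
    (hx' : (x' : F) ∈ riemannRochSpace (E + Finsupp.single Q (i : ℤ))) :
    ∀ (j : ℕ) (x w : S.O), (x : F) ∈ riemannRochSpace (E + Finsupp.single P ((e0 + j : ℕ) : ℤ)) →
      x - x' = S.cst b * w →
      ∃ u t : S.O, (u : F) ∈ riemannRochSpace (E + Finsupp.single P (e0 : ℤ)) ∧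
        S.red u = S.red x ∧ u - x' = S.cst b * t := by
  intro j
  induction j with
  | zero => exact fun x w hx hw => ⟨x, w, by simpa using hx, rfl, hw⟩
  | succ j ih =>
    intro x w hx hw
    obtain ⟨u, t, hu, hr, ht⟩ := S.descend hc hE hPQ (e := e0 + j) (by push_cast; omega) hb hb0
      (by rwa [← add_assoc] at hx) hx' hw
    obtain ⟨u', t', hu', hr', ht'⟩ := ih u t hu ht
    exact ⟨u', t', hu', hr'.trans hr, ht'⟩

omit [IsAlgClosed K] in
/-- An equation of `m • D`, normalised to reduce to the power of an equation of the reduction. -/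
private theorem exists_normal_pow {D : Divisor K F} {f : F} (hf : f ≠ 0)
    (hfD : divisorOf f = m • D) {h : Fb} (hh : h ≠ 0)
    (hhD : Finsupp.mapDomain S.r D = divisorOf h) :
    ∃ g : S.O, divisorOf (g : F) = m • D ∧ S.red g = h ^ m := by
  obtain ⟨l, g, hl, he, hgr⟩ := S.exists_normal hf
  have hg0 : (g : F) ≠ 0 := fun h0 => hf (by rw [he, h0, mul_zero])
  have hdiv : divisorOf (g : F) = m • D := by
    rw [← hfD, he, divisorOf_mul ((_root_.map_ne_zero _).2 hl) hg0]
    refine Finsupp.ext fun v => ?_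
    simp [ord_algebraMap hl]
  have hr := S.mapDomain_r g hgr
  rw [hdiv, ← Finsupp.mapDomain.addMonoidHom_apply, map_nsmul,
    Finsupp.mapDomain.addMonoidHom_apply, hhD] at hr
  obtain ⟨c, hc⟩ := exists_eq_algebraMap (K := k) (f := S.red g / h ^ m) fun v => by
    have h1 := DFunLike.congr_fun hr v
    simp only [Finsupp.smul_apply, divisorOf_apply, nsmul_eq_mul] at h1
    rw [ord_div hgr (pow_ne_zero _ hh), ord_pow, ← h1, sub_self]
  have hc0 : c ≠ 0 := fun h0 => div_ne_zero hgr (pow_ne_zero _ hh) (by rw [hc, h0, map_zero])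
  obtain ⟨a, ha⟩ := S.surj c⁻¹
  have haK : (a : K) ≠ 0 := fun h0 => inv_ne_zero hc0 (by
    rw [← ha, show a = 0 from Subtype.ext h0, map_zero])
  refine ⟨S.cst a * g, ?_, ?_⟩
  · rw [← hdiv, MulMemClass.coe_mul, coe_cst, divisorOf_mul ((_root_.map_ne_zero _).2 haK) hg0]
    refine Finsupp.ext fun v => ?_
    simp [ord_algebraMap haK]
  · rw [red_cst_mul, ha, Algebra.smul_def, map_inv₀, ← hc, inv_div,
      div_mul_cancel₀ _ hgr]

omit [IsAlgClosed k] in
/-- An equation of the reduction lifts to a function with poles near one point. -/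
private theorem exists_lift_near {c : ℤ} (hc : S.IsThreshold c)
    {e0 : ℕ} (he0 : c ≤ (e0 : ℤ)) {D : Divisor K F} {h : Fb} (hh : h ≠ 0)
    (hhD : Finsupp.mapDomain S.r D = divisorOf h) (hEdeg : Divisor.degree (-D) = 0)
    (R : Place K F) :
    ∃ x : S.O, (x : F) ∈ riemannRochSpace (-D + Finsupp.single R (e0 : ℤ)) ∧ S.red x = h := by
  classical
  have hd : c ≤ Divisor.degree (-D + Finsupp.single R (e0 : ℤ)) := by
    rw [map_add, hEdeg, Divisor.degree_single, deg_eq_one R]; push_cast; omega
  refine S.exists_lift (hc _ hd).2 ?_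
  rw [mem_riemannRochSpace_iff_ne_zero hh]
  intro v
  rw [Finsupp.mapDomain_add, ← Finsupp.mapDomain.addMonoidHom_apply, map_neg,
    Finsupp.mapDomain.addMonoidHom_apply, hhD, Finsupp.mapDomain_single]
  simp only [Finsupp.add_apply, Finsupp.neg_apply, divisorOf_apply, Finsupp.single_apply]
  split_ifs <;> omega

omit [IsAlgClosed K] [IsAlgClosed k] in
/-- Two approximate roots with the same reduction are congruent. -/
private theorem exists_sub_eq_cst_mul (hm : (m : k) ≠ 0) {g x x' w w' : S.O} {h : Fb} (hh : h ≠ 0)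
    {b : A} (hxr : S.red x = h) (hxr' : S.red x' = h) (hxw : x ^ m = g * (1 - S.cst b * w))
    (hxw' : x' ^ m = g * (1 - S.cst b * w')) : ∃ z : S.O, x - x' = S.cst b * z := by
  set Sg := ∑ i ∈ Finset.range m, x ^ i * x' ^ (m - 1 - i)
  have hSg : S.red Sg ≠ 0 := by
    rw [map_sum]
    simp only [map_mul, map_pow, hxr, hxr', ← pow_add]
    rw [Finset.sum_congr rfl fun i hi => by
      rw [Nat.add_sub_cancel' (Nat.le_sub_one_of_lt (Finset.mem_range.1 hi))],
      Finset.sum_const, Finset.card_range, nsmul_eq_mul]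
    exact mul_ne_zero (by rw [← map_natCast (algebraMap k Fb)]; exact (_root_.map_ne_zero _).2 hm)
      (pow_ne_zero _ hh)
  have hgeom : Sg * (x - x') = x ^ m - x' ^ m := geom_sum₂_mul x x' m
  set si : S.O := ⟨_, S.inv_mem hSg⟩
  have hsi : si * Sg = 1 := Subtype.ext (inv_mul_cancel₀ fun h0 => hSg (by
    rw [show Sg = 0 from Subtype.ext h0, map_zero]))
  refine ⟨si * g * (w' - w), ?_⟩
  calc x - x' = si * Sg * (x - x') := by rw [hsi, one_mul]
    _ = si * (x ^ m - x' ^ m) := by rw [mul_assoc, hgeom]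
    _ = _ := by rw [hxw, hxw']; ring

omit [IsAlgClosed K] [IsAlgClosed k] in
/-- For subspaces meeting in zero, a congruence modulo a small enough constant between integral
members of each reduces them to zero. -/
private theorem exists_red_eq_zero_of_congr (U U' : Submodule K F) [Module.Finite K U]
    [Module.Finite K U'] (hdisj : ∀ y : F, y ∈ U → y ∈ U' → y = 0)
    (hmax : ∃ μ : A, (μ : K) ≠ 0 ∧ ρ μ = 0) :
    ∃ b : A, (b : K) ≠ 0 ∧ ρ b = 0 ∧ ∀ u u' s : S.O, (u : F) ∈ U → (u' : F) ∈ U' →
      u' - u = S.cst b * s → S.red u = 0 := by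
  classical
  obtain ⟨v, hv, hvi⟩ := S.lattice U inferInstance
  obtain ⟨t, ht, hti⟩ := S.lattice (U ⊔ U') inferInstance
  choose y hy y' hy' hyy using fun j => Submodule.mem_sup.1 (ht j)
  choose α hα using fun j => S.mem_span_of_card hvi hv (Fintype.card_fin _) (hy j)
  obtain ⟨d, hd0, hd⟩ := exists_common_denom A (fun p : Fin _ × Fin _ => α p.1 p.2)
  obtain ⟨μ, hμ0, hμ⟩ := hmax
  set b : A := μ * d
  have hbK : (b : K) ≠ 0 := mul_ne_zero hμ0 hd0
  have hb0 : ρ b = 0 := by rw [map_mul, hμ, zero_mul]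
  refine ⟨b, hbK, hb0, fun u u' s hu hu' hus => ?_⟩
  -- express everything in the basis of `U + U'`
  have hsW : (-s : S.O).1 ∈ U ⊔ U' := by
    have e1 : (u' : F) - u = algebraMap K F (b : K) * (s : F) := congrArg Subtype.val hus
    have e2 : (-s : S.O).1 = (b : K)⁻¹ • ((u : F) - u') := by
      rw [show (u : F) - u' = algebraMap K F (b : K) * -(s : F) by rw [mul_neg, ← e1]; ring,
        Algebra.smul_def, ← mul_assoc, ← map_mul, inv_mul_cancel₀ hbK, map_one, one_mul]
      rfl
    rw [e2]
    exact Submodule.smul_mem _ _ (Submodule.sub_mem _ (Submodule.mem_sup_left hu)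
      (Submodule.mem_sup_right hu'))
  obtain ⟨cf, hcf⟩ := S.mem_span_of_card hti ht (Fintype.card_fin _) hsW
  have hcfA : ∀ j, cf j ∈ A := S.coeff_mem hti (hcf ▸ (-s : S.O).2)
  have hu_eq : (u : F) = ∑ j, ((b : K) * cf j) • y j := by
    have e1 : (u' : F) - u = algebraMap K F (b : K) * (s : F) := congrArg Subtype.val hus
    have e2 : (u : F) - u' = ∑ j, ((b : K) * cf j) • (y j + y' j) := by
      simp only [hyy, mul_smul, ← Finset.smul_sum, hcf]
      rw [Algebra.smul_def, NegMemClass.coe_neg, mul_neg, ← e1]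
      ring
    simp only [smul_add, Finset.sum_add_distrib] at e2
    refine sub_eq_zero.1 (hdisj _ (Submodule.sub_mem _ hu
      (Submodule.sum_mem _ fun j _ => U.smul_mem _ (hy j))) ?_)
    rw [show (u : F) - ∑ j, ((b : K) * cf j) • y j = u' + ∑ j, ((b : K) * cf j) • y' j by
      linear_combination e2]
    exact Submodule.add_mem _ hu' (Submodule.sum_mem _ fun j _ => U'.smul_mem _ (hy' j))
  let β : Fin (finrank K U) → A := fun i =>
    μ * ∑ j, ⟨cf j, hcfA j⟩ * ⟨(d : K) * α j i, hd (j, i)⟩
  have hu2 : u = ∑ i, S.cst (β i) * v i := Subtype.ext (by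
    rw [hu_eq, AddSubmonoidClass.coe_finsetSum]
    simp only [← hα, Finset.smul_sum, smul_smul]
    rw [Finset.sum_comm]
    refine Finset.sum_congr rfl fun i _ => ?_
    show _ = algebraMap K F (β i : K) * (v i : F)
    rw [← Algebra.smul_def, ← Finset.sum_smul]
    congr 1
    simp only [β, b]
    push_cast
    rw [Finset.mul_sum]
    exact Finset.sum_congr rfl fun j _ => by ring)
  rw [hu2, map_sum]
  refine Finset.sum_eq_zero fun i _ => ?_
  rw [red_cst_mul, map_mul, hμ, zero_mul, zero_smul]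

/-- **Torsion prime to the residue characteristic injects under reduction.** Let the constant
reduction `S` preserve the genus, over an archimedean valuation, and let `m` be prime to the
residue characteristic. A divisor of degree zero is principal if its `m`-th multiple and its
reduction are. -/
theorem isPrincipal_of_reduction (hgen : rGenus K F ≤ rGenus k Fb) (harch : Arch ρ)
    (hmax : ∃ μ : A, (μ : K) ≠ 0 ∧ ρ μ = 0) (hm : (m : k) ≠ 0) {D : Divisor K F}
    (hD : Divisor.degree D = 0) (hmD : Divisor.IsPrincipal (m • D))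
    (hred : Divisor.IsPrincipal (Finsupp.mapDomain S.r D)) : Divisor.IsPrincipal D := by
  classical
  obtain ⟨f, hf, hfD⟩ := hmD
  obtain ⟨h, hh, hhD⟩ := hred
  replace hfD : divisorOf f = m • D := Finsupp.ext fun v => (hfD v).symm
  replace hhD : Finsupp.mapDomain S.r D = divisorOf h := Finsupp.ext hhD
  obtain ⟨g, hgdiv, hg⟩ := S.exists_normal_pow hf hfD hh hhD
  -- it suffices to find a nonzero section
  set E : Divisor K F := -D with hEdef
  have hEdeg : Divisor.degree E = 0 := by rw [hEdef, map_neg, hD, neg_zero]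
  by_contra hnp
  have hbot : ∀ y : F, y ∈ riemannRochSpace E → y = 0 := fun y hy => by
    by_contra hy0
    refine hnp ⟨y, hy0, fun v => ?_⟩
    rw [← divisorOf_apply y v, divisorOf_eq_neg_of_mem hEdeg hy0 hy, hEdef, neg_neg]
  obtain ⟨c, hc⟩ := (S.exists_threshold hgen)
  obtain ⟨P, Q, hPQ⟩ := (S.exists_two_places hgen)
  set e0 : ℕ := c.toNat
  have he0 : c ≤ (e0 : ℤ) := Int.self_le_toNat c
  have hh1 : ∀ R : Place K F,
      ∃ x : S.O, (x : F) ∈ riemannRochSpace (E + Finsupp.single R (e0 : ℤ)) ∧ S.red x = h :=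
    fun R => S.exists_lift_near hc he0 hh hhD hEdeg R
  have hdivE : divisorOf (g : F) = -(m • E) := by rw [hgdiv, hEdef, smul_neg, neg_neg]
  -- the spaces near the two points
  set U := riemannRochSpace (E + Finsupp.single P (e0 : ℤ))
  set U' := riemannRochSpace (E + Finsupp.single Q (e0 : ℤ))
  have hdisj : ∀ y : F, y ∈ U → y ∈ U' → y = 0 := fun y h1 h2 => hbot y (by
    rw [mem_riemannRochSpace] at h1 h2 ⊢
    intro R
    by_cases hR : P = R
    · have := h2 R
      simp only [Finsupp.add_apply, Finsupp.single_apply] at this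
      rw [if_neg fun h => hPQ (congrArg S.r (hR.trans h.symm))] at this
      simpa using this
    · have := h1 R
      simp only [Finsupp.add_apply, Finsupp.single_apply, if_neg hR] at this
      simpa using this)
  obtain ⟨b, hbK, hb0, hcongr⟩ := S.exists_red_eq_zero_of_congr U U' hdisj hmax
  obtain ⟨e, he, x, w, hx, hxr, hxw⟩ := S.exists_root_approx harch hm hh hg hdivE (hh1 P) hbK
  obtain ⟨e', he', x', w', hx', hxr', hxw'⟩ := S.exists_root_approx harch hm hh hg hdivE (hh1 Q) hbK
  obtain ⟨z, hz⟩ := S.exists_sub_eq_cst_mul hm hh hxr hxr' hxw hxw'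
  obtain ⟨j, rfl⟩ := Nat.exists_eq_add_of_le he
  obtain ⟨j', rfl⟩ := Nat.exists_eq_add_of_le he'
  obtain ⟨u, s, hu, hur, hus⟩ := S.descend_iter hc hEdeg hPQ he0 hbK hb0 hx' j x z hx hz
  obtain ⟨u', s', hu', -, hus'⟩ := S.descend_iter hc hEdeg hPQ.symm he0 hbK hb0 hu j' x' (-s) hx'
    (by rw [← neg_sub, hus]; ring)
  exact hh (by rw [← hxr, ← hur]; exact hcongr u u' s' hu hu' hus')

end FermatAgent.Curve.ConstRed
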